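/-
General octahedral Langlands–Tunnell: the hypotheses and the objects exchanged between C1, C2, C3.
-/
import Fermat.Agent.LT.Boundary.Statements

set_option autoImplicit false

open Fermat.Agent.Galois Fermat.Agent.LT Fermat.Agent.LT.Adelic NumberField IsDedekindDomain
open WeierstrassCurve CongruenceSubgroup
open scoped MatrixGroups ModularForm

noncomputable section

namespace Fermat.Agent.Extra.LTGen

/-- A surjective mod 3 representation of finite level with cyclotomic determinant. -/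
structure IsThreeRho (ρ : GalQ →* GL (Fin 2) (ZMod 3)) : Prop where
  factors : GaloisFactorsThroughFiniteLevel ρ
  surjective : Function.Surjective ρ
  det : ∀ σ, Matrix.GeneralLinearGroup.det (ρ σ) = modThreeCyclotomicChar σ

/-- C1 output: a dihedral cusp form on `F'` of some level `M`, with eigenvalue the trace of the
octahedral lift at every place prime to `M`. -/
def HasDihedralFormGen (ρ : GalQ →* GL (Fin 2) (ZMod 3)) [NumberField (fieldF' ρ)] : Prop :=
  ∃ (Φ : Frame (fieldF' ρ) (Fin 3)) (M : ℕ) (U : Subgroup (GfK (fieldF' ρ)))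
    (φ : Space Φ U → ℂ),
    M ≠ 0 ∧
    principalLevel _ (M : 𝓞 (fieldF' ρ)) ≤ U ∧ U ≤ principalLevel _ 1 ∧
    IsCuspEigen φ ∧
    ∀ w : HeightOneSpectrum (𝓞 (fieldF' ρ)), PrimeTo M w →
      ∀ σ, IsFrobOver (fieldF' ρ) w.asIdeal σ → IsHeckeEigenAt φ w (octTrace ρ σ)

/-- C2 output: a cusp eigenform on `F` of some level `M`, with real eigenvalues bounded by two at
the places prime to `3 M`, equal to the trace of the octahedral lift outside a small set of places
and at every place splitting completely in `F'`. -/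
def HasDescentFormGen (ρ : GalQ →* GL (Fin 2) (ZMod 3)) : Prop :=
  ∃ (Φ : Frame fieldF Unit) (M : ℕ) (U : Subgroup (GfK fieldF)) (φ : Space Φ U → ℂ)
    (a : HeightOneSpectrum (𝓞 fieldF) → ℂ) (X : Set (HeightOneSpectrum (𝓞 fieldF))),
    M ≠ 0 ∧
    principalLevel _ (M : 𝓞 fieldF) ≤ U ∧ U ≤ principalLevel _ 1 ∧
    IsCuspEigen φ ∧
    (∀ v, PrimeTo (3 * M) v → IsHeckeEigenAt φ v (a v) ∧ ‖a v‖ ≤ 2 ∧ (a v).im = 0) ∧
    SmallPlaceSet X ∧
    ∀ v, PrimeTo (3 * M) v → ∀ σ, IsFrobOver fieldF v.asIdeal σ →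
      v ∉ X ∨ ρ σ ∈ quatSubgroup → a v = octTrace ρ σ

/-- A weight one eigenform with the traces of the octahedral lift at almost all primes `1 mod 3`. -/
def HasWeightOneGen (ρ : GalQ →* GL (Fin 2) (ZMod 3)) : Prop :=
  ∃ (N : ℕ) (_ : NeZero N) (ε : DirichletCharacter ℂ N) (f : CuspForm (Gamma1 N) 1),
    ModularFormClass.qCoeff f 1 = 1 ∧
    (∀ p : ℕ, p.Prime → ¬ p ∣ N → ∀ n : ℕ,
      ModularFormClass.qCoeff f (p * n) +
          ε (p : ZMod N) * (if p ∣ n then ModularFormClass.qCoeff f (n / p) else 0) =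
        ModularFormClass.qCoeff f p * ModularFormClass.qCoeff f n) ∧
    (∀ g ∈ Gamma0 N, (⇑f) ∣[(1 : ℤ)] g =
      ε ((g 1 1 : ℤ) : ZMod N) • ⇑f) ∧
    ∃ X : Set ℕ, DS.PrimeDensityLE X 0 ∧
      ∀ p : ℕ, p.Prime → ¬ p ∣ N → p % 3 = 1 → p ∉ X →
        ∀ A : ValuationSubring Qbar, A.LiesOverPrime p → ∀ σ, A.IsFrobeniusAt σ p →
          ModularFormClass.qCoeff f p = octTrace ρ σ

/-- C1. -/
def StmtDihedralGen : Prop :=
  ∀ (ρ : GalQ →* GL (Fin 2) (ZMod 3)) [NumberField (fieldF' ρ)],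
    IsThreeRho ρ → HasDihedralFormGen ρ

/-- C2. -/
def StmtDescentGen : Prop :=
  ∀ (ρ : GalQ →* GL (Fin 2) (ZMod 3)) [NumberField (fieldF' ρ)],
    IsThreeRho ρ → HasDihedralFormGen ρ → HasDescentFormGen ρ

/-- C3. -/
def StmtThetaLiftGen : Prop :=
  ∀ ρ : GalQ →* GL (Fin 2) (ZMod 3), IsThreeRho ρ → HasDescentFormGen ρ → HasWeightOneGen ρ

/-- C1–C3. -/
def StmtWeightOneGen : Prop :=
  ∀ ρ : GalQ →* GL (Fin 2) (ZMod 3), IsThreeRho ρ → HasWeightOneGen ρ

/-- `F'` is finite over `ℚ`. -/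
theorem finiteDimensional_fieldF'_gen {ρ : GalQ →* GL (Fin 2) (ZMod 3)} (hρ : IsThreeRho ρ) :
    FiniteDimensional ℚ (fieldF' ρ) := by
  obtain ⟨L, hL, hker⟩ := hρ.factors
  have := hL
  refine finiteDimensional_fixedField_of_le (L := L) fun σ hσ => ?_
  show ρ σ ∈ quatSubgroup
  rw [hker σ ((IntermediateField.mem_fixingSubgroup_iff L σ).1 hσ)]
  exact one_mem _

theorem stmtWeightOneGen_of (h1 : StmtDihedralGen) (h2 : StmtDescentGen) (h3 : StmtThetaLiftGen) :
    StmtWeightOneGen := by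
  intro ρ hρ
  have : FiniteDimensional ℚ (fieldF' ρ) := finiteDimensional_fieldF'_gen hρ
  have : NumberField (fieldF' ρ) := { to_charZero := inferInstance, to_finiteDimensional := ‹_› }
  exact h3 ρ hρ (h2 ρ hρ (h1 ρ hρ))

end Fermat.Agent.Extra.LTGen
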