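/-
General Langlands–Tunnell: the pieces put together.
-/
import Fermat.Agent.Extra.LTGen.Dihedral.Pieces
import Fermat.Agent.Extra.LTGen.Dihedral.ThetaGen
import Fermat.Agent.Extra.LTGen.Dihedral.GaloisTower
import Fermat.Agent.Extra.LTGen.Descent.Pieces
import Fermat.Agent.Extra.LTGen.Descent.DeepChar
import Fermat.Agent.Extra.LTGen.Descent.Main
import Fermat.Agent.Extra.LTGen.Galois.Exit
import Fermat.Agent.Extra.LTGen.Lift.Main

set_option autoImplicit false

noncomputable section

namespace Fermat.Agent.Extra.LTGen

/-- **C1–C3 for every surjective representation with cyclotomic determinant.** -/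
theorem stmtWeightOneGen : StmtWeightOneGen :=
  stmtWeightOneGen_of (stmtDihedralGen_of stmtDihDataGen stmtThetaGen)
    (stmtDescentGen_of GalSide.stmtDescentGalois stmtDeepCharAll stmtDescendedGen)
    Lift.stmtThetaLiftGen

end Fermat.Agent.Extra.LTGen
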