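import Fermat.Agent.LT.WeightOne.Rescale

/-!
# Removing the coefficients not prime to the level from a weight one cusp form on `Γ₁(N)`

For a prime `q` dividing the level, `g - V_q U_q g` has the coefficients of `g` at `n` prime to `q`
and `0` elsewhere, at level `L q`.
-/

set_option autoImplicit false

noncomputable section

open CongruenceSubgroup UpperHalfPlane ModularFormClass Matrix.SpecialLinearGroup
open Fermat.Agent.LT.WeightOne Fermat.Agent.HK
open scoped MatrixGroups ModularForm Manifold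

namespace Fermat.Agent.Extra.LTGen

/-- A form on `Γ₁(M)` as a form on `Γ₁(L)` for `M ∣ L`. -/
theorem exists_raiseGamma1 {M L : ℕ} [NeZero M] [NeZero L] (h : M ∣ L)
    (f : CuspForm (Gamma1 M) 1) : ∃ F : CuspForm (Gamma1 L) 1, ⇑F = ⇑f := by
  refine ⟨{ toFun := ⇑f
            slash_action_eq' := ?_
            holo' := CuspFormClass.holo f
            zero_at_cusps' := fun {c} hc => ?_ }, rfl⟩
  · rintro _ ⟨γ, hγ, rfl⟩
    refine SlashInvariantFormClass.slash_action_eq f _ ⟨γ, ?_, rfl⟩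
    obtain ⟨h00, h11, h10⟩ := (Gamma1_mem _ _).1 hγ
    refine (Gamma1_mem _ _).2 ⟨?_, ?_, ?_⟩
    · simpa only [map_intCast, map_one] using congrArg (ZMod.castHom h (ZMod M)) h00
    · simpa only [map_intCast, map_one] using congrArg (ZMod.castHom h (ZMod M)) h11
    · simpa only [map_intCast, map_zero] using congrArg (ZMod.castHom h (ZMod M)) h10
  · rw [Subgroup.IsArithmetic.isCusp_iff_isCusp_SL2Z] at hc
    exact CuspFormClass.zero_at_cusps f
      ((Subgroup.IsArithmetic.isCusp_iff_isCusp_SL2Z _).2 hc)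

/-- `g ↦ g (q τ)`. -/
theorem exists_degenGamma1 {L q : ℕ} [NeZero L] [NeZero q] (g : CuspForm (Gamma1 L) 1) :
    ∃ G : CuspForm (Gamma1 (L * q)) 1,
      ∀ n, qCoeff G n = if q ∣ n then qCoeff g (n / q) else 0 := by
  have hq0 : q ≠ 0 := NeZero.ne q
  have e : ModularForm.heckeT 1 q ⇑g - ModularForm.heckeU 1 q ⇑g =
      ⇑g ∣[(1 : ℤ)] ModularForm.heckeDiagMatrix q := by
    rw [ModularForm.heckeT_eq_heckeU_add, add_sub_cancel_left]
  have aU : AnalyticAt ℂ (cuspFunction 1 (ModularForm.heckeU 1 q ⇑g)) 0 :=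
    UpperHalfPlane.analyticAt_cuspFunction_zero one_pos
      (ModularForm.periodic_heckeU_comp_ofComplex (periodic_form g) 1 q)
      (ModularForm.mdifferentiable_heckeU (CuspFormClass.holo g) 1 q)
      (ModularForm.isBoundedAtImInfty_heckeU (bdd_form g) 1 q)
  have aT : AnalyticAt ℂ (cuspFunction 1 (ModularForm.heckeT 1 q ⇑g)) 0 :=
    UpperHalfPlane.analyticAt_cuspFunction_zero one_pos
      (ModularForm.periodic_heckeT_comp_ofComplex (periodic_form g) 1 q)
      (ModularForm.mdifferentiable_heckeT (CuspFormClass.holo g) 1 q)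
      (ModularForm.isBoundedAtImInfty_heckeT (bdd_form g) 1 q)
  refine ⟨{ toFun := ⇑g ∣[(1 : ℤ)] ModularForm.heckeDiagMatrix q
            slash_action_eq' := ?_
            holo' := (CuspFormClass.holo g).slash 1 _
            zero_at_cusps' := fun {c} hc => ?_ }, fun n => ?_⟩
  · rintro _ ⟨γ, hγ, rfl⟩
    obtain ⟨h00, h11, h10⟩ := (Gamma1_mem _ _).1 hγ
    rw [ZMod.intCast_zmod_eq_zero_iff_dvd] at h10
    push_cast at h10
    obtain ⟨γ', e00, e01, e10, e11, hγ'⟩ :=
      exists_conj_diag (M := q) γ ((dvd_mul_left (q : ℤ) L).trans h10)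
    have hmem : γ' ∈ Gamma1 L := by
      refine (Gamma1_mem _ _).2 ⟨?_, ?_, ?_⟩
      · rw [e00]; simpa only [map_intCast, map_one] using congrArg (ZMod.castHom (dvd_mul_right L q) (ZMod L)) h00
      · rw [e11]; simpa only [map_intCast, map_one] using congrArg (ZMod.castHom (dvd_mul_right L q) (ZMod L)) h11
      · obtain ⟨c, hc⟩ := h10
        rw [ZMod.intCast_zmod_eq_zero_iff_dvd, e10, hc,
          show (L : ℤ) * q * c = q * (L * c) by ring,
          Int.mul_ediv_cancel_left _ (Int.natCast_ne_zero.2 hq0)]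
        exact dvd_mul_right _ _
    rw [← SlashAction.slash_mul, hγ', SlashAction.slash_mul]
    congr 1
    exact SlashInvariantFormClass.slash_action_eq g _ ⟨γ', hmem, rfl⟩
  · rw [Subgroup.IsArithmetic.isCusp_iff_isCusp_SL2Z] at hc
    have hc' : IsCusp c (Gamma1 L : Subgroup (GL (Fin 2) ℝ)) :=
      (Subgroup.IsArithmetic.isCusp_iff_isCusp_SL2Z _).2 hc
    intro A hA
    rw [← e, sub_eq_add_neg, SlashAction.add_slash, SlashAction.neg_slash]
    exact Filter.ZeroAtFilter.add (CuspFormClass.isZeroAt_heckeT g q hc' A hA)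
      (Filter.ZeroAtFilter.neg (CuspFormClass.isZeroAt_heckeU g q hc' A hA))
  · show qCoeff (⇑g ∣[(1 : ℤ)] ModularForm.heckeDiagMatrix q) n = _
    rw [← e]
    show (qExpansion 1 _).coeff n = _
    rw [UpperHalfPlane.qExpansion_sub aT aU, map_sub]
    change qCoeff (ModularForm.heckeT 1 q ⇑g) n - qCoeff (ModularForm.heckeU 1 q ⇑g) n = _
    rw [UpperHalfPlane.qCoeff_heckeT (periodic_form _) (CuspFormClass.holo _) (bdd_form _) 1 hq0,
      UpperHalfPlane.qCoeff_heckeU (periodic_form _) (CuspFormClass.holo _) (bdd_form _) 1 hq0,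
      ModularForm.coeffHeckeT_apply, ModularForm.coeffHeckeU_apply, add_sub_cancel_left]
    simp

/-- The coefficients of the difference of two forms. -/
theorem qCoeff_form_sub {L : ℕ} (f g : CuspForm (Gamma1 L) 1) (n : ℕ) :
    qCoeff ⇑(f - g) n = qCoeff f n - qCoeff g n :=
  (coeffLin 1 L n).map_sub f g

/-- One prime removed. -/
theorem exists_deplete_prime {L q : ℕ} [NeZero L] (hq : q.Prime) (hqL : q ∣ L)
    (g : CuspForm (Gamma1 L) 1) :
    ∃ G : CuspForm (Gamma1 (L * q)) 1, ∀ n, qCoeff G n = if q ∣ n then 0 else qCoeff g n := by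
  have := Fact.mk hq
  have : NeZero q := ⟨hq.ne_zero⟩
  obtain ⟨V, hV⟩ := exists_degenGamma1 (q := q) (heckeForm q g)
  obtain ⟨R, hR⟩ := exists_raiseGamma1 (dvd_mul_right L q) g
  refine ⟨R - V, fun n => ?_⟩
  rw [qCoeff_form_sub, hV, hR]
  by_cases hn : q ∣ n
  · rw [if_pos hn, if_pos hn, qCoeff_heckeForm, if_neg (fun h => h.1 hqL),
      Nat.div_mul_cancel hn, add_zero, sub_self]
  · rw [if_neg hn, if_neg hn, sub_zero]

/-- All the primes of `M` removed, at a level with the same primes. -/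
theorem exists_depleted {N M : ℕ} [NeZero N] [NeZero M] (h : N ∣ M) (f : CuspForm (Gamma1 N) 1) :
    ∃ (L : ℕ) (_ : NeZero L), M ∣ L ∧ (∀ p : ℕ, p.Prime → p ∣ L → p ∣ M) ∧
      ∃ g : CuspForm (Gamma1 L) 1, ∀ n, qCoeff g n = if n.Coprime M then qCoeff f n else 0 := by
  suffices H : ∀ D : Finset ℕ, D ⊆ M.primeFactors → ∃ (L : ℕ) (_ : NeZero L), M ∣ L ∧
      (∀ p : ℕ, p.Prime → p ∣ L → p ∣ M) ∧ ∃ g : CuspForm (Gamma1 L) 1,
        ∀ n, qCoeff g n = if ∀ q ∈ D, ¬ q ∣ n then qCoeff f n else 0 by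
    obtain ⟨L, hL, hML, hp, g, hg⟩ := H _ subset_rfl
    refine ⟨L, hL, hML, hp, g, fun n => (hg n).trans (if_congr ⟨fun h' => ?_, fun h' q hq hqn => ?_⟩
      rfl rfl)⟩
    · refine Nat.coprime_of_dvd fun q hq hqn hqM => h' q ?_ hqn
      exact Nat.mem_primeFactors.2 ⟨hq, hqM, NeZero.ne M⟩
    · obtain ⟨hqp, hqM, -⟩ := Nat.mem_primeFactors.1 hq
      exact hqp.one_lt.ne' (Nat.eq_one_of_dvd_coprimes h' hqn hqM)
  intro D
  induction D using Finset.induction with
  | empty =>
    intro _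
    obtain ⟨F, hF⟩ := exists_raiseGamma1 h f
    exact ⟨M, inferInstance, dvd_rfl, fun _ _ h => h, F, fun n => by simp [hF]⟩
  | insert q D hqD ih =>
    intro hD
    rw [Finset.insert_subset_iff] at hD
    obtain ⟨hq, hqM, -⟩ := Nat.mem_primeFactors.1 hD.1
    obtain ⟨L, hL, hML, hp, g, hg⟩ := ih hD.2
    obtain ⟨G, hG⟩ := exists_deplete_prime hq (hqM.trans hML) g
    refine ⟨L * q, ⟨mul_ne_zero (NeZero.ne L) hq.ne_zero⟩, hML.mul_right q,
      fun p hpp hpL => (hpp.dvd_mul.1 hpL).elim (hp p hpp) fun hpq => hpq.trans hqM, G,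
      fun n => ?_⟩
    rw [hG, hg]
    simp only [Finset.forall_mem_insert]
    by_cases hn : q ∣ n <;> simp [hn]

end Fermat.Agent.Extra.LTGen

end
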