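import Fermat.Agent.LT.Data.Lift
import Mathlib.LinearAlgebra.Matrix.GeneralLinearGroup.Defs

/-!
# Every section of reduction `GL₂(ℤ[√-2]) → GL₂(𝔽₃)` has the traces of the octahedral lift

Elements of `GL₂(𝔽₃)` satisfy `g ^ 6 = 1` or `g ^ 8 = 1`, which bounds the possible traces and
determinants of their lifts to a list on which reduction mod `√-2 + 1` is injective.
-/

set_option autoImplicit false

noncomputable section

open Matrix FLT.ExplicitLift
open scoped MatrixGroups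

namespace Fermat.Agent.Extra.LTGen

theorem pow_six_or_eight_entries : ∀ a b c d : ZMod 3, a * d - b * c ≠ 0 →
    (!![a, b; c, d] : Matrix (Fin 2) (Fin 2) (ZMod 3)) ^ 6 = 1 ∨
      (!![a, b; c, d] : Matrix (Fin 2) (Fin 2) (ZMod 3)) ^ 8 = 1 := by
  decide +kernel

theorem scalar_cases : ∀ a d : ZMod 3, a * d ≠ 0 → a = d →
    (!![a, 0; 0, d] : Matrix (Fin 2) (Fin 2) (ZMod 3)) = 1 ∨
      (!![a, 0; 0, d] : Matrix (Fin 2) (Fin 2) (ZMod 3)) = -1 := by
  decide +kernel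

/-- `x ^ 2` is an integer. -/
theorem sq_eq_intCast {x : ℤ√(-2)} {k : ℤ} (h : x * x = (k : ℤ√(-2))) :
    (x.im = 0 ∧ x.re * x.re = k) ∨ (x.re = 0 ∧ -2 * (x.im * x.im) = k) := by
  have h1 := congrArg Zsqrtd.re h
  have h2 := congrArg Zsqrtd.im h
  simp only [Zsqrtd.re_mul, Zsqrtd.im_mul, Zsqrtd.re_intCast, Zsqrtd.im_intCast] at h1 h2
  rcases mul_eq_zero.1 (show x.re * x.im = 0 by linarith) with hr | hi
  · exact Or.inr ⟨hr, by rw [hr] at h1; linarith⟩
  · exact Or.inl ⟨hi, by rw [hi] at h1; linarith⟩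

theorem sq_ne {x : ℤ√(-2)} {k : ℤ} (hk : k = -1 ∨ k = 2 ∨ k = 3 ∨ k = -3) :
    x * x ≠ (k : ℤ√(-2)) := by
  intro h
  rcases sq_eq_intCast h with ⟨-, h⟩ | ⟨-, h⟩
  · have hub : -2 < x.re ∧ x.re < 2 := by
      rcases hk with rfl | rfl | rfl | rfl <;> constructor <;> nlinarith
    obtain ⟨h1, h2⟩ := hub
    interval_cases hx : x.re <;> omega
  · have hub : -2 < x.im ∧ x.im < 2 := by
      rcases hk with rfl | rfl | rfl | rfl <;> constructor <;> nlinarith
    obtain ⟨h1, h2⟩ := hub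
    interval_cases hx : x.im <;> omega

theorem noZeroDivisors_negTwo : NoZeroDivisors (ℤ√(-2)) where
  eq_zero_or_eq_zero_of_mul_eq_zero {a b} h := by
    have hd : ∀ n : ℤ, (-2 : ℤ) ≠ n * n := fun n hn => by nlinarith [mul_self_nonneg n]
    have := congrArg Zsqrtd.norm h
    rw [Zsqrtd.norm_mul, Zsqrtd.norm_zero, mul_eq_zero] at this
    exact this.imp (Zsqrtd.norm_eq_zero hd a).1 (Zsqrtd.norm_eq_zero hd b).1

theorem isDomain_negTwo : IsDomain (ℤ√(-2)) :=
  have := noZeroDivisors_negTwo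
  NoZeroDivisors.to_isDomain _

attribute [local instance] noZeroDivisors_negTwo isDomain_negTwo

theorem red_ofInts (r s : ℤ) : red ⟨r, s⟩ = (r : ZMod 3) - s := Fermat.Agent.LT.red_apply _

/-- The traces of a non scalar matrix of determinant `d = ±1` killed by `6` or `8`. -/
theorem trace_cases {t d : ℤ√(-2)} (hd : d = 1 ∨ d = -1)
    (h : t * (t * t - d) * (t * t - 3 * d) = 0 ∨
      t * (t * t - 2 * d) * (t * t * (t * t) - 4 * d * (t * t) + 2 * (d * d)) = 0) :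
    t = 0 ∨ (d = 1 ∧ (t = 1 ∨ t = -1)) ∨ (d = -1 ∧ (t = ⟨0, 1⟩ ∨ t = ⟨0, -1⟩)) := by
  by_cases h0 : t = 0
  · exact Or.inl h0
  refine Or.inr ?_
  simp only [mul_eq_zero, h0, false_or, sub_eq_zero] at h
  rcases h with (h | h) | (h | h)
  · rcases hd with rfl | rfl
    · exact Or.inl ⟨rfl, mul_self_eq_one_iff.1 h⟩
    · exact absurd (h.trans (by norm_num : (-1 : ℤ√(-2)) = ((-1 : ℤ) : ℤ√(-2)))) (sq_ne (Or.inl rfl))
  · rcases hd with rfl | rfl
    · exact absurd (h.trans (by norm_num : (3 * 1 : ℤ√(-2)) = ((3 : ℤ) : ℤ√(-2))))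
        (sq_ne (Or.inr (Or.inr (Or.inl rfl))))
    · exact absurd (h.trans (by norm_num : (3 * -1 : ℤ√(-2)) = ((-3 : ℤ) : ℤ√(-2))))
        (sq_ne (Or.inr (Or.inr (Or.inr rfl))))
  · rcases hd with rfl | rfl
    · exact absurd (h.trans (by norm_num : (2 * 1 : ℤ√(-2)) = ((2 : ℤ) : ℤ√(-2))))
        (sq_ne (Or.inr (Or.inl rfl)))
    · rcases sq_eq_intCast (h.trans (by norm_num : (2 * -1 : ℤ√(-2)) = ((-2 : ℤ) : ℤ√(-2)))) with
        ⟨-, h'⟩ | ⟨hr, h'⟩
      · nlinarith [mul_self_nonneg t.re]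
      · refine Or.inr ⟨rfl, ?_⟩
        rcases mul_self_eq_one_iff.1 (show t.im * t.im = 1 by linarith) with hi | hi
        · exact Or.inl (Zsqrtd.ext hr hi)
        · exact Or.inr (Zsqrtd.ext hr hi)
  · have hdd : d * d = 1 := by rcases hd with rfl | rfl <;> simp
    refine absurd ?_ (sq_ne (x := t * t - 2 * d) (k := 2) (Or.inr (Or.inl rfl)))
    rw [show ((2 : ℤ) : ℤ√(-2)) = 2 by norm_num]
    linear_combination h + (2 : ℤ√(-2)) * hdd

/-- Two matrices with equal reduced traces and determinants, as above, have the same trace. -/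
theorem trace_eq_of_cases {t t' d d' : ℤ√(-2)} (hd : red d = red d') (ht : red t = red t')
    (h : t = 0 ∨ (d = 1 ∧ (t = 1 ∨ t = -1)) ∨ (d = -1 ∧ (t = ⟨0, 1⟩ ∨ t = ⟨0, -1⟩)))
    (h' : t' = 0 ∨ (d' = 1 ∧ (t' = 1 ∨ t' = -1)) ∨ (d' = -1 ∧ (t' = ⟨0, 1⟩ ∨ t' = ⟨0, -1⟩))) :
    t = t' := by
  rcases h with rfl | ⟨rfl, rfl | rfl⟩ | ⟨rfl, rfl | rfl⟩ <;>
    rcases h' with rfl | ⟨rfl, rfl | rfl⟩ | ⟨rfl, rfl | rfl⟩ <;>
    first
      | rfl
      | (exfalso; clear hd; revert ht; simp only [map_zero, map_one, map_neg, red_ofInts]; decide)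
      | (exfalso; revert hd ht; simp only [map_zero, map_one, map_neg, red_ofInts]; decide)

theorem pow_six_eq (A : Matrix (Fin 2) (Fin 2) (ℤ√(-2))) :
    ∃ v : ℤ√(-2), A ^ 6 = (A.trace * (A.trace * A.trace - A.det) *
      (A.trace * A.trace - 3 * A.det)) • A + v • (1 : Matrix (Fin 2) (Fin 2) (ℤ√(-2))) := by
  set t := A.trace with ht
  set d := A.det with hd
  have hsq : ∀ u v : ℤ√(-2), (u • A + v • (1 : Matrix (Fin 2) (Fin 2) (ℤ√(-2)))) * A =
      (u * t + v) • A + (-(u * d)) • (1 : Matrix (Fin 2) (Fin 2) (ℤ√(-2))) := fun u v => by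
    rw [ht, hd]
    refine Matrix.ext fun i j => ?_
    fin_cases i <;> fin_cases j <;>
      simp [Matrix.mul_apply, Fin.sum_univ_two, Matrix.trace_fin_two, Matrix.det_fin_two] <;> ring
  have h1 : A ^ 1 = (1 : ℤ√(-2)) • A + (0 : ℤ√(-2)) • (1 : Matrix (Fin 2) (Fin 2) (ℤ√(-2))) := by simp
  have h2 := congrArg (· * A) h1
  simp only [← pow_succ, hsq] at h2
  have h3 := congrArg (· * A) h2
  simp only [← pow_succ, hsq] at h3
  have h4 := congrArg (· * A) h3
  simp only [← pow_succ, hsq] at h4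
  have h5 := congrArg (· * A) h4
  simp only [← pow_succ, hsq] at h5
  have h6 := congrArg (· * A) h5
  simp only [← pow_succ, hsq] at h6
  refine ⟨_, h6.trans (congrArg (· • A + _) ?_)⟩
  ring

theorem pow_eight_eq (A : Matrix (Fin 2) (Fin 2) (ℤ√(-2))) :
    ∃ v : ℤ√(-2), A ^ 8 = (A.trace * (A.trace * A.trace - 2 * A.det) *
      (A.trace * A.trace * (A.trace * A.trace) - 4 * A.det * (A.trace * A.trace) +
        2 * (A.det * A.det))) • A + v • (1 : Matrix (Fin 2) (Fin 2) (ℤ√(-2))) := by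
  set t := A.trace with ht
  set d := A.det with hd
  have hsq : ∀ u v : ℤ√(-2), (u • A + v • (1 : Matrix (Fin 2) (Fin 2) (ℤ√(-2)))) * A =
      (u * t + v) • A + (-(u * d)) • (1 : Matrix (Fin 2) (Fin 2) (ℤ√(-2))) := fun u v => by
    rw [ht, hd]
    refine Matrix.ext fun i j => ?_
    fin_cases i <;> fin_cases j <;>
      simp [Matrix.mul_apply, Fin.sum_univ_two, Matrix.trace_fin_two, Matrix.det_fin_two] <;> ring
  have h1 : A ^ 1 = (1 : ℤ√(-2)) • A + (0 : ℤ√(-2)) • (1 : Matrix (Fin 2) (Fin 2) (ℤ√(-2))) := by simp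
  have h2 := congrArg (· * A) h1
  simp only [← pow_succ, hsq] at h2
  have h3 := congrArg (· * A) h2
  simp only [← pow_succ, hsq] at h3
  have h4 := congrArg (· * A) h3
  simp only [← pow_succ, hsq] at h4
  have h5 := congrArg (· * A) h4
  simp only [← pow_succ, hsq] at h5
  have h6 := congrArg (· * A) h5
  simp only [← pow_succ, hsq] at h6
  have h7 := congrArg (· * A) h6
  simp only [← pow_succ, hsq] at h7
  have h8 := congrArg (· * A) h7
  simp only [← pow_succ, hsq] at h8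
  refine ⟨_, h8.trans (congrArg (· • A + _) ?_)⟩
  ring

/-- A scalar identity forces the matrix to be scalar or the coefficient to vanish. -/
theorem scalar_or_eq_zero {A : Matrix (Fin 2) (Fin 2) (ℤ√(-2))} {u v : ℤ√(-2)}
    (h : (1 : Matrix (Fin 2) (Fin 2) (ℤ√(-2))) = u • A + v • (1 : Matrix (Fin 2) (Fin 2) (ℤ√(-2)))) :
    u = 0 ∨ (A 0 1 = 0 ∧ A 1 0 = 0 ∧ A 0 0 = A 1 1) := by
  by_cases hu : u = 0
  · exact Or.inl hu
  have e00 := congrFun (congrFun h 0) 0
  have e01 := congrFun (congrFun h 0) 1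
  have e10 := congrFun (congrFun h 1) 0
  have e11 := congrFun (congrFun h 1) 1
  simp at e00 e01 e10 e11
  refine Or.inr ⟨(e01.resolve_left hu), (e10.resolve_left hu), mul_left_cancel₀ hu ?_⟩
  linear_combination e11 - e00

theorem det_eq_one_or (A : GL (Fin 2) (ℤ√(-2))) :
    (A : Matrix (Fin 2) (Fin 2) (ℤ√(-2))).det = 1 ∨
      (A : Matrix (Fin 2) (Fin 2) (ℤ√(-2))).det = -1 := by
  set d := (A : Matrix (Fin 2) (Fin 2) (ℤ√(-2))).det
  have hu : IsUnit d := (Matrix.isUnit_iff_isUnit_det _).1 A.isUnit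
  have hn := Zsqrtd.norm_eq_one_iff.2 hu
  have hnorm : d.norm = d.re * d.re + 2 * (d.im * d.im) := by rw [Zsqrtd.norm_def]; ring
  have hpos : 0 ≤ d.norm := by rw [hnorm]; nlinarith [mul_self_nonneg d.re, mul_self_nonneg d.im]
  have h1 : d.re * d.re + 2 * (d.im * d.im) = 1 := by omega
  have hi : d.im = 0 := by
    by_contra hi
    have : 1 ≤ d.im * d.im := by rcases lt_or_gt_of_ne hi with h | h <;> nlinarith
    nlinarith [mul_self_nonneg d.re]
  rcases mul_self_eq_one_iff.1 (show d.re * d.re = 1 by rw [hi] at h1; linarith) with hr | hr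
  · exact Or.inl (Zsqrtd.ext (by simpa using hr) (by simpa using hi))
  · exact Or.inr (Zsqrtd.ext (by simpa using hr) (by simpa using hi))

/-- A lift of a non scalar element has trace in the list. -/
theorem trace_lift_cases {g : GL (Fin 2) (ZMod 3)} {A : GL (Fin 2) (ℤ√(-2))}
    (hred : ∀ i j, red (A i j) = g i j) (hg : g ≠ 1) (hg' : (g : Matrix (Fin 2) (Fin 2) (ZMod 3)) ≠ -1)
    (hA : A ^ 6 = 1 ∨ A ^ 8 = 1) :
    let t := (A : Matrix (Fin 2) (Fin 2) (ℤ√(-2))).trace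
    let d := (A : Matrix (Fin 2) (Fin 2) (ℤ√(-2))).det
    t = 0 ∨ (d = 1 ∧ (t = 1 ∨ t = -1)) ∨ (d = -1 ∧ (t = ⟨0, 1⟩ ∨ t = ⟨0, -1⟩)) := by
  intro t d
  have hns : ¬ ((A : Matrix (Fin 2) (Fin 2) (ℤ√(-2))) 0 1 = 0 ∧
      (A : Matrix (Fin 2) (Fin 2) (ℤ√(-2))) 1 0 = 0 ∧
      (A : Matrix (Fin 2) (Fin 2) (ℤ√(-2))) 0 0 = (A : Matrix (Fin 2) (Fin 2) (ℤ√(-2))) 1 1) := by
    rintro ⟨h01, h10, h00⟩
    have e : (g : Matrix (Fin 2) (Fin 2) (ZMod 3)) = !![g 0 0, 0; 0, g 1 1] := by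
      rw [Matrix.eta_fin_two (g : Matrix (Fin 2) (Fin 2) (ZMod 3)), ← hred 0 1, ← hred 1 0, h01,
        h10, map_zero]
      simp
    have hne : g 0 0 * g 1 1 ≠ 0 := by
      have := Fermat.Agent.LT.det_entries_ne_zero g
      rw [← hred 0 1, h01, map_zero, zero_mul, sub_zero] at this
      exact this
    rcases scalar_cases (g 0 0) (g 1 1) hne (by rw [← hred, ← hred, h00]) with h | h
    · exact hg (Units.ext (e.trans h))
    · exact hg' (e.trans h)
  refine trace_cases (det_eq_one_or A) ?_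
  rcases hA with h | h
  · obtain ⟨v, hv⟩ := pow_six_eq (A : Matrix (Fin 2) (Fin 2) (ℤ√(-2)))
    rw [← Units.val_pow_eq_pow_val, h, Units.val_one] at hv
    exact Or.inl ((scalar_or_eq_zero hv).resolve_right hns)
  · obtain ⟨v, hv⟩ := pow_eight_eq (A : Matrix (Fin 2) (Fin 2) (ℤ√(-2)))
    rw [← Units.val_pow_eq_pow_val, h, Units.val_one] at hv
    exact Or.inr ((scalar_or_eq_zero hv).resolve_right hns)

/-- The lift of `-1` has trace `-2`. -/
theorem trace_lift_neg_one {A : GL (Fin 2) (ℤ√(-2))} (hred : ∀ i j, red (A i j) = (-1 : Matrix (Fin 2) (Fin 2) (ZMod 3)) i j)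
    (hA : A ^ 2 = 1) : (A : Matrix (Fin 2) (Fin 2) (ℤ√(-2))).trace = -2 := by
  have h : (A : Matrix (Fin 2) (Fin 2) (ℤ√(-2))) * (A : Matrix (Fin 2) (Fin 2) (ℤ√(-2))) = 1 := by
    rw [← Units.val_mul, ← sq, hA, Units.val_one]
  set M := (A : Matrix (Fin 2) (Fin 2) (ℤ√(-2)))
  have e00 := congrFun (congrFun h 0) 0
  have e01 := congrFun (congrFun h 0) 1
  have e10 := congrFun (congrFun h 1) 0
  have e11 := congrFun (congrFun h 1) 1
  simp [Matrix.mul_apply, Fin.sum_univ_two] at e00 e01 e10 e11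
  have ht : M 0 0 + M 1 1 ≠ 0 := fun h0 => by
    have := congrArg red h0
    rw [map_add, hred, hred, map_zero] at this
    revert this; decide
  have h01 : M 0 1 = 0 := by
    have e : M 0 1 * (M 0 0 + M 1 1) = 0 := by linear_combination e01
    exact (mul_eq_zero.1 e).resolve_right ht
  have h10 : M 1 0 = 0 := by
    have e : M 1 0 * (M 0 0 + M 1 1) = 0 := by linear_combination e10
    exact (mul_eq_zero.1 e).resolve_right ht
  rw [h01, zero_mul, add_zero] at e00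
  rw [h10, zero_mul, zero_add] at e11
  have hne : ∀ i, red (M i i) = -1 → M i i ≠ 1 := fun i hi h1 => by
    rw [h1, map_one] at hi
    revert hi; decide
  rw [Matrix.trace_fin_two, (mul_self_eq_one_iff.1 e00).resolve_left (hne 0 (by rw [hred]; simp)),
    (mul_self_eq_one_iff.1 e11).resolve_left (hne 1 (by rw [hred]; simp))]
  norm_num

/-- **Every section of reduction has the traces of `octLift`.** -/
theorem trace_section_eq_octLift (Ψ : GL (Fin 2) (ZMod 3) →* GL (Fin 2) (ℤ√(-2)))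
    (hΨ : ∀ g, Matrix.GeneralLinearGroup.map red (Ψ g) = g) (g : GL (Fin 2) (ZMod 3)) :
    (Ψ g : Matrix (Fin 2) (Fin 2) (ℤ√(-2))).trace =
      (Fermat.Agent.LT.octLift g : Matrix (Fin 2) (Fin 2) (ℤ√(-2))).trace := by
  have hred : ∀ (θ : GL (Fin 2) (ZMod 3) →* GL (Fin 2) (ℤ√(-2))),
      (∀ x, Matrix.GeneralLinearGroup.map red (θ x) = x) → ∀ i j, red (θ g i j) = g i j := by
    intro θ hθ i j
    exact congrArg (fun x : GL (Fin 2) (ZMod 3) => x i j) (hθ g)
  have hθ' := Fermat.Agent.LT.red_octLift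
  by_cases hg : g = 1
  · rw [hg, map_one, map_one]
  have h68 : g ^ 6 = 1 ∨ g ^ 8 = 1 := by
    have e := Matrix.eta_fin_two (g : Matrix (Fin 2) (Fin 2) (ZMod 3))
    rcases pow_six_or_eight_entries _ _ _ _ (Fermat.Agent.LT.det_entries_ne_zero g) with h | h
    · exact Or.inl (Units.ext (by rw [Units.val_pow_eq_pow_val, e, h, Units.val_one]))
    · exact Or.inr (Units.ext (by rw [Units.val_pow_eq_pow_val, e, h, Units.val_one]))
  by_cases hg' : (g : Matrix (Fin 2) (Fin 2) (ZMod 3)) = -1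
  · have h2 : g ^ 2 = 1 := Units.ext (by rw [Units.val_pow_eq_pow_val, hg', Units.val_one]; simp)
    rw [trace_lift_neg_one (fun i j => by rw [hred Ψ hΨ, hg']) (by rw [← map_pow, h2, map_one]),
      trace_lift_neg_one (fun i j => by rw [hred _ hθ', hg']) (by rw [← map_pow, h2, map_one])]
  have hpow : ∀ θ : GL (Fin 2) (ZMod 3) →* GL (Fin 2) (ℤ√(-2)), θ g ^ 6 = 1 ∨ θ g ^ 8 = 1 :=
    fun θ => h68.imp (fun h => by rw [← map_pow, h, map_one]) fun h => by rw [← map_pow, h, map_one]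
  refine trace_eq_of_cases ?_ ?_
    (trace_lift_cases (hred Ψ hΨ) hg hg' (hpow Ψ))
    (trace_lift_cases (hred _ hθ') hg hg' (hpow _))
  · simp only [Matrix.det_fin_two, map_sub, map_mul, hred Ψ hΨ, hred _ hθ']
  · simp only [Matrix.trace_fin_two, map_add, hred Ψ hΨ, hred _ hθ']

end Fermat.Agent.Extra.LTGen

end
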