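import Fermat.Agent.Extra.LTGen.Defs
import Fermat.Agent.Extra.LTGen.TopForms
import Fermat.Agent.Extra.LTGen.TopTrace
import Fermat.Agent.LT.C4.Main
import Fermat.Prelude.Def_LanglandsTunnell_WeightOneRealizationCarriers

/-!
# S47 from the weight one form of a general `ρ`

`qCoeff f p` and `ε p` are pinned at every good prime by `S48`, the coefficients at bad primes are
removed, and any section of reduction has the traces of the octahedral lift.
-/

set_option autoImplicit false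

noncomputable section

open Fermat.Agent.Galois Fermat.Agent.LT Fermat.Agent.LT.C4 EisensteinWeightOne ModularFormClass
open WeierstrassCurve CongruenceSubgroup FLT.ExplicitLift
open scoped MatrixGroups

namespace Fermat.Agent.Extra.LTGen

theorem sqrtNegTwoC_injective : Function.Injective sqrtNegTwoC := by
  refine Zsqrtd.lift_injective _ fun n hn => ?_
  nlinarith [mul_self_nonneg n]

theorem iotaSign_injective (b : Bool) : Function.Injective (iotaSign b) := by
  unfold iotaSign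
  split
  · exact sqrtNegTwoC_injective
  · exact sqrtNegTwoC_injective.comp star_injective

/-- The coefficients of an eigensystem generated by values in a ring are in the ring. -/
theorem exists_preimage {R : Type*} [CommRing R] (ι : R →+* ℂ) {L : ℕ} (c : ℕ → ℂ) (e : ℕ → R)
    (x : ℕ → R) (h0 : c 0 = 0) (h1 : c 1 = 1) (hbad : ∀ n, 2 ≤ n → ¬ n.Coprime L → c n = 0)
    (hx : ∀ p : ℕ, p.Prime → ¬ p ∣ L → c p = ι (x p))
    (hrel : ∀ p : ℕ, p.Prime → ¬ p ∣ L → ∀ n : ℕ,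
      c (p * n) + ι (e p) * (if p ∣ n then c (n / p) else 0) = c p * c n) :
    ∀ n, ∃ r : R, ι r = c n := by
  intro n
  induction n using Nat.strong_induction_on with
  | _ n ih =>
    rcases Nat.lt_or_ge n 2 with h | h
    · interval_cases n
      · exact ⟨0, by rw [h0, map_zero]⟩
      · exact ⟨1, by rw [h1, map_one]⟩
    by_cases hL : n.Coprime L
    swap
    · exact ⟨0, by rw [hbad n h hL, map_zero]⟩
    set p := n.minFac
    have hp : p.Prime := Nat.minFac_prime (by omega)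
    obtain ⟨m, hm⟩ : p ∣ n := n.minFac_dvd
    have hpL : ¬ p ∣ L := fun hpL => hp.one_lt.ne' (Nat.eq_one_of_dvd_coprimes hL ⟨m, hm⟩ hpL)
    have hmn : m < n := by
      rw [hm]
      exact lt_mul_of_one_lt_left (Nat.pos_of_ne_zero fun h0' => by simp [h0'] at hm; omega) hp.one_lt
    obtain ⟨r, hr⟩ := ih m hmn
    by_cases hpm : p ∣ m
    · obtain ⟨s, hs⟩ := ih (m / p) ((Nat.div_le_self m p).trans_lt hmn)
      refine ⟨x p * r - e p * s, ?_⟩
      have := hrel p hp hpL m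
      rw [if_pos hpm, ← hm] at this
      rw [map_sub, map_mul, map_mul, hr, hs, ← hx p hp hpL, ← this]
      ring
    · refine ⟨x p * r, ?_⟩
      have := hrel p hp hpL m
      rw [if_neg hpm, mul_zero, add_zero, ← hm] at this
      rw [map_mul, hr, ← hx p hp hpL, this]

/-- The realised eigensystem of a weight one form with octahedral traces. -/
theorem exists_realised_of_hasWeightOneGen (ρ₃ : GalQ →* GL (Fin 2) (ZMod 3))
    (hρ₃ : IsThreeRho ρ₃) (hW1 : HasWeightOneGen ρ₃) :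
    ∃ (N : ℕ) (_ : NeZero N) (b : ℕ → ℤ√(-2)),
      FormalHecke.IsEigensystem
        (fun ℓ => if ℓ ∣ N then 0 else ((chiNegThree ℓ : ℤ) : ℤ√(-2))) b ∧
      CuspForm.IsWeightOneChiNegThreeRealized N b ∧
      ∀ p : ℕ, p.Prime → ¬ p ∣ 3 * N →
        ∀ A : ValuationSubring (AlgebraicClosure ℚ), A.LiesOverPrime p →
          ∀ σ : GalQ, A.IsFrobeniusAt σ p →
            b p = (octLift (ρ₃ σ) : Matrix (Fin 2) (Fin 2) (ℤ√(-2))).trace := by
  obtain ⟨N, hN0, ε, f, hf1, hT, -, X, hX, hsplit⟩ := hW1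
  obtain ⟨ρ, hρfac, -, hρp⟩ := Fermat.Agent.S48.result N ε f hf1 hT
  set T : Set ℕ := X ∪ {p | p ∣ 3 * N}
  have hTd : DS.PrimeDensityLE T 0 := by
    refine (hX.union (DS.primeDensityLE_of_finite ?_)).mono_right (by simp)
    exact Set.Finite.subset (Set.finite_Iic (3 * N))
      fun p hp => Nat.le_of_dvd (by have := NeZero.pos N; omega) hp
  obtain ⟨β, hβ⟩ := exists_sign_trace_det ρ hρfac ρ₃ hρ₃.factors hρ₃.surjective hTd
    fun p hp hpT A hA σ hσ hdet => by
      simp only [T, Set.mem_union, Set.mem_ofPred_eq, not_or] at hpT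
      have hpN : ¬ p ∣ N := fun h => hpT.2 (h.mul_left 3)
      have hp3 : ¬ 3 ∣ p := fun h =>
        hpT.2 ((Nat.prime_dvd_prime_iff_eq Nat.prime_three hp).1 h ▸ dvd_mul_right 3 N)
      rw [det_frobenius hρ₃.det hp hp3 hA hσ] at hdet
      have hp1 : p % 3 = 1 := by
        have := congrArg ZMod.val hdet
        rwa [ZMod.val_natCast, ZMod.val_one] at this
      rw [((hρp p hp hpN A hA).2 σ hσ).1, ← trace_octRep]
      exact hsplit p hp hpN hp1 hpT.1 A hA σ hσ
  set M := Nat.lcm N 3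
  have : NeZero M := ⟨(Nat.lcm_pos (NeZero.pos N) three_pos).ne'⟩
  obtain ⟨L, hL0, hML, hprimes, g, hg⟩ := exists_depleted (Nat.dvd_lcm_left N 3) f
  -- the values at the primes not dividing `L`
  have hgood : ∀ p : ℕ, p.Prime → ¬ p ∣ L → ¬ p ∣ N ∧ ¬ 3 ∣ p := fun p hp hpL =>
    ⟨fun h => hpL ((h.trans (Nat.dvd_lcm_left N 3)).trans hML), fun h => hpL
      (((dvd_of_eq ((Nat.prime_dvd_prime_iff_eq Nat.prime_three hp).1 h).symm).trans
        (Nat.dvd_lcm_right N 3)).trans hML)⟩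
  have hval : ∀ p : ℕ, p.Prime → ¬ p ∣ L → ∀ A : ValuationSubring (AlgebraicClosure ℚ),
      A.LiesOverPrime p → ∀ σ : GalQ, A.IsFrobeniusAt σ p →
        qCoeff f p = iotaSign β (octLift (ρ₃ σ) : Matrix (Fin 2) (Fin 2) (ℤ√(-2))).trace ∧
          ε (p : ZMod N) = iotaSign β ((chiNegThree p : ℤ) : ℤ√(-2)) := by
    intro p hp hpL A hA σ hσ
    obtain ⟨hpN, hp3⟩ := hgood p hp hpL
    obtain ⟨htr, hdet⟩ := (hρp p hp hpN A hA).2 σ hσ
    obtain ⟨e1, e2⟩ := hβ σ
    refine ⟨by rw [← htr, e1], ?_⟩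
    rw [map_intCast, ← hdet, e2, detSign, det_frobenius hρ₃.det hp hp3 hA hσ,
      chiNegThree_eq_of_cast hp3]
  choose A σ hA hσ using fun p : Nat.Primes => Galois.exists_place_isFrobeniusAt p.2
  let x : ℕ → ℤ√(-2) := fun p => if hp : p.Prime then
    (octLift (ρ₃ (σ ⟨p, hp⟩)) : Matrix (Fin 2) (Fin 2) (ℤ√(-2))).trace else 0
  set c : ℕ → ℂ := fun n => qCoeff g n
  have hc : ∀ n, c n = if n.Coprime M then qCoeff f n else 0 := hg
  have hpM : ∀ p : ℕ, p.Prime → ¬ p ∣ L → ¬ p ∣ M := fun p _ h h' => h (h'.trans hML)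
  have hcp : ∀ p : ℕ, p.Prime → ¬ p ∣ L → c p = iotaSign β (x p) := fun p hp hpL => by
    rw [hc, if_pos (hp.coprime_iff_not_dvd.2 (hpM p hp hpL)), show x p = _ from dif_pos hp]
    exact (hval p hp hpL _ (hA ⟨p, hp⟩) _ (hσ ⟨p, hp⟩)).1
  have hrel : ∀ p : ℕ, p.Prime → ¬ p ∣ L → ∀ n : ℕ,
      c (p * n) + iotaSign β ((chiNegThree p : ℤ) : ℤ√(-2)) *
        (if p ∣ n then c (n / p) else 0) = c p * c n := by
    intro p hp hpL n
    have hco : p.Coprime M := hp.coprime_iff_not_dvd.2 (hpM p hp hpL)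
    rw [← (hval p hp hpL _ (hA ⟨p, hp⟩) _ (hσ ⟨p, hp⟩)).2, hc, hc, hc, hc, if_pos hco]
    by_cases hn : n.Coprime M
    · rw [if_pos hn, if_pos (hco.mul_left hn), ← hT p hp (hgood p hp hpL).1 n]
      by_cases hpn : p ∣ n
      · rw [if_pos hpn, if_pos hpn, if_pos (hn.coprime_dvd_left (Nat.div_dvd_of_dvd hpn))]
      · rw [if_neg hpn, if_neg hpn]
    · rw [if_neg hn, if_neg fun h => hn (Nat.Coprime.coprime_mul_left h), mul_zero, zero_add]
      by_cases hpn : p ∣ n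
      · have hn' : ¬ (n / p).Coprime M := fun h => hn (by
          obtain ⟨m, rfl⟩ := hpn
          rw [Nat.mul_div_cancel_left _ hp.pos] at h
          exact hco.mul_left h)
        rw [if_pos hpn, if_neg hn', mul_zero]
      · rw [if_neg hpn, mul_zero]
  have h1c : c 1 = 1 := by rw [hc, if_pos (Nat.coprime_one_left M), hf1]
  have hbad : ∀ n, 2 ≤ n → ¬ n.Coprime L → c n = 0 := fun n _ hn => by
    rw [hc, if_neg]
    obtain ⟨p, hp, hpn, hpL⟩ := Nat.Prime.not_coprime_iff_dvd.1 hn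
    exact fun h => hp.one_lt.ne' (Nat.eq_one_of_dvd_coprimes h hpn (hprimes p hp hpL))
  have h0c : c 0 = 0 := LT.WeightOne.qCoeff_form_zero g
  choose b hb using exists_preimage (iotaSign β) c (fun p => ((chiNegThree p : ℤ) : ℤ√(-2))) x
    h0c h1c hbad hcp hrel
  refine ⟨L, hL0, b, ⟨iotaSign_injective β ((hb 1).trans (h1c.trans (map_one _).symm)),
    fun ℓ hℓ n => iotaSign_injective β ?_⟩, ⟨iotaSign β, g, fun n => (hb n).symm⟩,
    fun p hp hp3L A hA σ hσ => iotaSign_injective β ?_⟩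
  · simp only [map_add, map_mul, apply_ite (iotaSign β), map_zero, hb]
    by_cases hℓL : ℓ ∣ L
    · have hz : ∀ m, ℓ ∣ m → c m = 0 := fun m hm => by
        rw [hc, if_neg]
        exact fun h => hℓ.one_lt.ne' (Nat.eq_one_of_dvd_coprimes h hm (hprimes ℓ hℓ hℓL))
      rw [if_pos hℓL, hz _ (dvd_mul_right ℓ n), hz ℓ dvd_rfl, zero_mul, zero_mul, add_zero]
    · rw [if_neg hℓL]
      exact hrel ℓ hℓ hℓL n
  · have hpL : ¬ p ∣ L := fun h => hp3L (h.mul_left 3)
    rw [hb, hc, if_pos (hp.coprime_iff_not_dvd.2 (hpM p hp hpL))]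
    exact (hval p hp hpL A hA σ hσ).1

/-- A continuous representation into a finite group factors through a finite level. -/
theorem factors_of_continuous (ρ : GalQ →* GL (Fin 2) (ZMod 3)) (hρ : Continuous ρ) :
    GaloisFactorsThroughFiniteLevel ρ := by
  have hS : IsOpen (ρ ⁻¹' {1}) := (isOpen_discrete _).preimage hρ
  obtain ⟨E, hE, hEs⟩ := (krullTopology_mem_nhds_one_iff ℚ Qbar (ρ ⁻¹' {1})).mp
    (hS.mem_nhds (map_one ρ))
  exact ⟨E, hE, fun σ hσ => hEs ((IntermediateField.mem_fixingSubgroup_iff E σ).2 hσ)⟩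

/-- **S47 from C1–C3.** -/
theorem stmt47_of (h : StmtWeightOneGen)
    (ρ : (AlgebraicClosure ℚ ≃ₐ[ℚ] AlgebraicClosure ℚ) →* GL (Fin 2) (ZMod 3))
    (hρ : Continuous ρ) (hsurj : Function.Surjective ρ)
    (hdet : ∀ σ, Matrix.GeneralLinearGroup.det (ρ σ) = modThreeCyclotomicChar σ)
    (Ψ : GL (Fin 2) (ZMod 3) →* GL (Fin 2) (ℤ√(-2)))
    (hΨ : ∀ g, Matrix.GeneralLinearGroup.map red (Ψ g) = g) :
    ∃ (N : ℕ) (_ : NeZero N) (b : ℕ → ℤ√(-2)),
      FormalHecke.IsEigensystem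
        (fun ℓ => if ℓ ∣ N then 0 else ((chiNegThree ℓ : ℤ) : ℤ√(-2))) b ∧
      CuspForm.IsWeightOneChiNegThreeRealized N b ∧
      ∀ p : ℕ, p.Prime → ¬ p ∣ 3 * N →
        ∀ A : ValuationSubring (AlgebraicClosure ℚ), A.LiesOverPrime p →
          ∀ σ : AlgebraicClosure ℚ ≃ₐ[ℚ] AlgebraicClosure ℚ, A.IsFrobeniusAt σ p →
            b p = ((Ψ (ρ σ) : GL (Fin 2) (ℤ√(-2))) : Matrix (Fin 2) (Fin 2) (ℤ√(-2))).trace := by
  have hρ₃ : IsThreeRho ρ := ⟨factors_of_continuous ρ hρ, hsurj, hdet⟩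
  obtain ⟨N, hN, b, he, hr, hp⟩ := exists_realised_of_hasWeightOneGen ρ hρ₃ (h ρ hρ₃)
  exact ⟨N, hN, b, he, hr, fun p hpp hpN A hA σ hσ => by
    rw [hp p hpp hpN A hA σ hσ, trace_section_eq_octLift Ψ hΨ]⟩

end Fermat.Agent.Extra.LTGen

end
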